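import Mathlib
import Fermat.Agent.LT.T3.R.Spec
import Fermat.Agent.LT.T3.M.H474.ROpM

/-!
# Row LT, tower T3, station T3.18R, leaf R.4 `ROpRC` (helper321, OFF-MAIN): the real embedding

Complete proofs, nothing assumed.  The real analogue of `H57/ROpEmb.lean`, `H57/ROpLoc.lean`
and of the first part of `H57/ROp.lean` (helper57), `K` totally real:

* `secondCountable_GL2R321`, `locallyCompact_GL2R321` : `GL₂(ℝ)` (units topology);
* `reEmb321 : (InfinitePlace K → GL₂(ℝ)) →* GL₂(𝔸_K)`, continuous, with components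
  `reGL_reEmb321`, `finGL_reEmb321`;
* `reEmbAt321 w : GL₂(ℝ) →* GL₂(𝔸_K)` (supported at `w`);
* `continuous_reGL321`, `reGL_finEmb321`;
* `piRe321`, `embFinR321` : the projection to `GL₂(ℝ)ⁿ` and its section;
* `inLevelGroup_ofR321` : `x ∈ G_∞ × U(𝔫)_f` implies `ι(π x)⁻¹ x ∈ U(𝔫)`;
* `measure_lt_topR321` : `U₀ ∩ π⁻¹ C` has finite Haar measure for compact `C`.
-/

set_option autoImplicit false
set_option linter.style.haveILetI false
set_option linter.unusedSectionVars false

open IsDedekindDomain NumberField Topology MeasureTheory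
open Fermat.Agent.LT.H556.A0
open Fermat.Agent.LT.T1 Fermat.Agent.LT.T1.H724 Fermat.Agent.LT.T1.H793
open Fermat.Agent.LT.T3
open Fermat.Agent.LT.T3.H57
open Fermat.Agent.LT.T3.M.H474
open scoped ENNReal

noncomputable section

namespace Fermat.Agent.LT.T3.R.H321

/-! ## `GL₂(ℝ)` -/

theorem secondCountable_matR321 : SecondCountableTopology (Matrix (Fin 2) (Fin 2) ℝ) :=
  inferInstanceAs (SecondCountableTopology (Fin 2 → Fin 2 → ℝ))

theorem locallyCompact_matR321 : LocallyCompactSpace (Matrix (Fin 2) (Fin 2) ℝ) :=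
  inferInstanceAs (LocallyCompactSpace (Fin 2 → Fin 2 → ℝ))

theorem secondCountable_GL2R321 : SecondCountableTopology (GL (Fin 2) ℝ) := by
  have := secondCountable_matR321
  have : SecondCountableTopology (Matrix (Fin 2) (Fin 2) ℝ)ᵐᵒᵖ :=
    MulOpposite.opHomeomorph.symm.secondCountableTopology
  exact (Units.isEmbedding_embedProduct (M := Matrix (Fin 2) (Fin 2) ℝ)).secondCountableTopology

theorem locallyCompact_GL2R321 : LocallyCompactSpace (GL (Fin 2) ℝ) := by
  have := locallyCompact_matR321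
  exact (Units.isClosedEmbedding_embedProduct (α := Matrix (Fin 2) (Fin 2) ℝ)).locallyCompactSpace

variable {K : Type} [Field K] [NumberField K]

/-! ## Components at a real place -/

theorem reGL_val321 (w : InfinitePlace K) (hw : w.IsReal) (g : G K) (i j : Fin 2) :
    ((reGL K w hw g : GL (Fin 2) ℝ) : Matrix (Fin 2) (Fin 2) ℝ) i j
      = InfinitePlace.Completion.extensionEmbeddingOfIsReal hw
          (((g : Matrix (Fin 2) (Fin 2) (Adl K)) i j).1 w) := rfl

theorem reGL_inv_val321 (w : InfinitePlace K) (hw : w.IsReal) (g : G K) (i j : Fin 2) :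
    (((reGL K w hw g)⁻¹ : GL (Fin 2) ℝ) : Matrix (Fin 2) (Fin 2) ℝ) i j
      = InfinitePlace.Completion.extensionEmbeddingOfIsReal hw
          ((((g⁻¹ : G K) : Matrix (Fin 2) (Fin 2) (Adl K)) i j).1 w) := by
  rw [← map_inv]
  rfl

theorem continuous_reGL321 (w : InfinitePlace K) (hw : w.IsReal) :
    Continuous (reGL K w hw) := by
  rw [Units.continuous_iff]
  refine ⟨?_, ?_⟩
  · refine continuous_matrix fun i j => ?_
    exact (InfinitePlace.Completion.isometry_extensionEmbeddingOfIsReal hw).continuous.comp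
      ((continuous_projInf793 w).comp (continuous_entry793 i j))
  · refine continuous_matrix fun i j => ?_
    have h : Continuous (fun g : G K =>
        InfinitePlace.Completion.extensionEmbeddingOfIsReal hw
          ((((g⁻¹ : G K) : Matrix (Fin 2) (Fin 2) (Adl K)) i j).1 w)) :=
      (InfinitePlace.Completion.isometry_extensionEmbeddingOfIsReal hw).continuous.comp
        ((continuous_projInf793 w).comp (continuous_entry_inv793 i j))
    refine h.congr fun g => ?_
    exact (reGL_inv_val321 w hw g i j).symm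

/-- The real component of an element which is trivial at `w`. -/
theorem reGL_eq_one_of_triv321 {w : InfinitePlace K} (hw : w.IsReal) {g : G K}
    (h : TrivAtInf w g) : reGL K w hw g = 1 := by
  apply Units.ext
  ext i j
  rw [reGL_val321, h i j, Units.val_one, Matrix.one_apply, Matrix.one_apply]
  split_ifs <;> simp

/-- An element with trivial real component at `w` is trivial at `w`. -/
theorem trivAtInf_of_reGL_eq_one321 {w : InfinitePlace K} (hw : w.IsReal) {g : G K}
    (h : reGL K w hw g = 1) : TrivAtInf w g := by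
  intro i j
  have h1 : InfinitePlace.Completion.extensionEmbeddingOfIsReal hw
      (((g : Matrix (Fin 2) (Fin 2) (Adl K)) i j).1 w) = (1 : Matrix (Fin 2) (Fin 2) ℝ) i j := by
    rw [← reGL_val321, h, Units.val_one]
  have h2 : InfinitePlace.Completion.extensionEmbeddingOfIsReal hw
      ((1 : Matrix (Fin 2) (Fin 2) w.Completion) i j) = (1 : Matrix (Fin 2) (Fin 2) ℝ) i j := by
    rw [Matrix.one_apply, Matrix.one_apply]
    split_ifs <;> simp
  exact (InfinitePlace.Completion.extensionEmbeddingOfIsReal hw).injective (h1.trans h2.symm)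

theorem reGL_finEmb321 (v₀ : HeightOneSpectrum (𝓞 K))
    (h : GL (Fin 2) (v₀.adicCompletion K)) (w : InfinitePlace K) (hw : w.IsReal) :
    reGL K w hw (finEmb57 v₀ h) = 1 :=
  reGL_eq_one_of_triv321 hw ((isLocalAtFin_finEmb57 v₀ h).1 w)

/-! ## The embedding of the real places -/

section Re

variable (hR : ∀ w : InfinitePlace K, w.IsReal)

/-- The inverse of the embedding `K_w → ℝ` at a real place. -/
def rInv321 (w : InfinitePlace K) : ℝ →+* w.Completion :=
  ((InfinitePlace.Completion.ringEquivRealOfIsReal (hR w)).symm : ℝ ≃+* w.Completion)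

theorem ext_rInv321 (w : InfinitePlace K) (z : ℝ) :
    InfinitePlace.Completion.extensionEmbeddingOfIsReal (hR w) (rInv321 hR w z) = z :=
  (InfinitePlace.Completion.ringEquivRealOfIsReal (hR w)).apply_symm_apply z

theorem continuous_rInv321 (w : InfinitePlace K) : Continuous (rInv321 hR w) :=
  (InfinitePlace.Completion.isometryEquivRealOfIsReal (hR w)).symm.continuous

/-- The adelic matrix with components `t w` at the real places and `1` at the finite places. -/
def reMat321 (t : InfinitePlace K → Matrix (Fin 2) (Fin 2) ℝ) : Matrix (Fin 2) (Fin 2) (Adl K) :=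
  fun i j => (fun w => rInv321 hR w (t w i j), ((1 : Matrix (Fin 2) (Fin 2) (Adl K)) i j).2)

theorem reMat_map_inf321 (t : InfinitePlace K → Matrix (Fin 2) (Fin 2) ℝ) (w : InfinitePlace K) :
    (reMat321 hR t).map (evInf724 w) = (t w).map (rInv321 hR w) := by
  ext i j : 1
  rfl

theorem reMat_map_fin321 (t : InfinitePlace K → Matrix (Fin 2) (Fin 2) ℝ)
    (v : HeightOneSpectrum (𝓞 K)) : (reMat321 hR t).map (evFin724 v) = 1 := by
  ext i j : 1
  rw [Matrix.map_apply]
  change evFin724 v ((1 : Matrix (Fin 2) (Fin 2) (Adl K)) i j) = _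
  rw [← Matrix.map_apply (f := evFin724 v), Matrix.map_one _ (map_zero _) (map_one _)]

theorem reMat_mul321 (s t : InfinitePlace K → Matrix (Fin 2) (Fin 2) ℝ) :
    reMat321 hR s * reMat321 hR t = reMat321 hR (fun w => s w * t w) := by
  refine mat_ext724 (fun w => ?_) (fun v => ?_)
  · rw [Matrix.map_mul, reMat_map_inf321, reMat_map_inf321, reMat_map_inf321, Matrix.map_mul]
  · rw [Matrix.map_mul, reMat_map_fin321, reMat_map_fin321, reMat_map_fin321, mul_one]

theorem reMat_one321 :
    reMat321 hR (fun _ => (1 : Matrix (Fin 2) (Fin 2) ℝ)) = 1 := by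
  refine mat_ext724 (fun w => ?_) (fun v => ?_)
  · rw [reMat_map_inf321, Matrix.map_one _ (map_zero _) (map_one _),
      Matrix.map_one _ (map_zero _) (map_one _)]
  · rw [reMat_map_fin321, Matrix.map_one _ (map_zero _) (map_one _)]

/-- The embedding `∏_w GL₂(ℝ) → GL₂(𝔸_K)`. -/
def reEmb321 : (InfinitePlace K → GL (Fin 2) ℝ) →* G K where
  toFun t :=
    ⟨reMat321 hR (fun w => ((t w : GL (Fin 2) ℝ) : Matrix (Fin 2) (Fin 2) ℝ)),
      reMat321 hR (fun w => (((t w)⁻¹ : GL (Fin 2) ℝ) : Matrix (Fin 2) (Fin 2) ℝ)),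
      by
        rw [reMat_mul321]
        simp only [← Units.val_mul, mul_inv_cancel, Units.val_one]
        exact reMat_one321 hR,
      by
        rw [reMat_mul321]
        simp only [← Units.val_mul, inv_mul_cancel, Units.val_one]
        exact reMat_one321 hR⟩
  map_one' := by
    apply Units.ext
    exact reMat_one321 hR
  map_mul' s t := by
    apply Units.ext
    change reMat321 hR _ = reMat321 hR _ * reMat321 hR _
    rw [reMat_mul321]
    rfl

theorem reEmb_val321 (t : InfinitePlace K → GL (Fin 2) ℝ) :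
    ((reEmb321 hR t : G K) : Matrix (Fin 2) (Fin 2) (Adl K))
      = reMat321 hR (fun w => ((t w : GL (Fin 2) ℝ) : Matrix (Fin 2) (Fin 2) ℝ)) := rfl

theorem reGL_reEmb321 (t : InfinitePlace K → GL (Fin 2) ℝ) (w : InfinitePlace K) :
    reGL K w (hR w) (reEmb321 hR t) = t w := by
  apply Units.ext
  ext i j
  rw [reGL_val321]
  exact ext_rInv321 hR w _

theorem finGL_reEmb321 (t : InfinitePlace K → GL (Fin 2) ℝ) (v : HeightOneSpectrum (𝓞 K)) :
    AS.finGL K v (reEmb321 hR t) = 1 := by
  apply Units.ext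
  rw [finGL_val57, Units.val_one]
  exact reMat_map_fin321 hR (fun w => ((t w : GL (Fin 2) ℝ) : Matrix (Fin 2) (Fin 2) ℝ)) v

theorem continuous_reMat321 :
    Continuous (fun t : InfinitePlace K → GL (Fin 2) ℝ =>
      reMat321 hR (fun w => ((t w : GL (Fin 2) ℝ) : Matrix (Fin 2) (Fin 2) ℝ))) := by
  refine continuous_matrix fun i j => ?_
  refine Continuous.prodMk (continuous_pi fun w => ?_) continuous_const
  refine (continuous_rInv321 hR w).comp ?_
  exact (Units.continuous_val.comp (continuous_apply w)).matrix_elem i j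

theorem continuous_reEmb321 : Continuous (reEmb321 hR) := by
  rw [Units.continuous_iff]
  refine ⟨continuous_reMat321 hR, ?_⟩
  have h : Continuous (fun t : InfinitePlace K → GL (Fin 2) ℝ => t⁻¹) := continuous_inv
  exact (continuous_reMat321 hR).comp h

/-- The component at `w' ≠ w` of an element supported at `w`. -/
theorem trivAtInf_reEmb321 [DecidableEq (InfinitePlace K)] (w : InfinitePlace K)
    (s : GL (Fin 2) ℝ) (w' : InfinitePlace K) (hw : w' ≠ w) :
    TrivAtInf w' (reEmb321 hR (Pi.mulSingle w s)) := by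
  intro i j
  rw [reEmb_val321]
  change rInv321 hR w' (((Pi.mulSingle w s : InfinitePlace K → GL (Fin 2) ℝ) w' :
    GL (Fin 2) ℝ).1 i j) = _
  rw [Pi.mulSingle_eq_of_ne hw, Units.val_one, Matrix.one_apply, Matrix.one_apply]
  split_ifs <;> simp

theorem trivAtFin_reEmb321 (t : InfinitePlace K → GL (Fin 2) ℝ) (v : HeightOneSpectrum (𝓞 K)) :
    TrivAtFin v (reEmb321 hR t) :=
  reMat_map_fin321 hR (fun w => ((t w : GL (Fin 2) ℝ) : Matrix (Fin 2) (Fin 2) ℝ)) v

theorem isLocalAtInf_reEmb321 [DecidableEq (InfinitePlace K)] (w : InfinitePlace K)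
    (s : GL (Fin 2) ℝ) : IsLocalAtInf w (reEmb321 hR (Pi.mulSingle w s)) :=
  ⟨fun w' hw => trivAtInf_reEmb321 hR w s w' hw, fun v => trivAtFin_reEmb321 hR _ v⟩

/-- `x ∈ G_∞ × U(𝔫)_f` differs from its infinite part by an element of `U(𝔫)`. -/
theorem inLevelGroup_ofR321 (𝔫 : Ideal (𝓞 K)) (x : G K) (hx : InU057 𝔫 x) :
    InLevelGroup 𝔫 ((reEmb321 hR (fun w => reGL K w (hR w) x))⁻¹ * x) := by
  obtain ⟨u, hu⟩ : ∃ u : G K, u = (reEmb321 hR (fun w => reGL K w (hR w) x))⁻¹ * x := ⟨_, rfl⟩
  rw [← hu]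
  have hinf : ∀ w, reGL K w (hR w) u = 1 := by
    intro w
    rw [hu, map_mul, map_inv, reGL_reEmb321, inv_mul_cancel]
  have hfin : ∀ v, AS.finGL K v u = AS.finGL K v x := by
    intro v
    rw [hu, map_mul, map_inv, finGL_reEmb321, inv_one, one_mul]
  refine ⟨fun w => trivAtInf_of_reGL_eq_one321 (hR w) (hinf w), ?_⟩
  have := (inU0_iff_loc57 𝔫 x).1 hx
  have h3 : InU057 𝔫 u := (inU0_iff_loc57 𝔫 u).2 fun v => by rw [hfin v]; exact this v
  exact h3

/-! ## The embedding of one real place -/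

open Classical in
/-- The embedding of `GL₂(ℝ)` at the place `w`. -/
def reEmbAt321 (w : InfinitePlace K) : GL (Fin 2) ℝ →* G K :=
  (reEmb321 hR).comp (MonoidHom.mulSingle (fun _ : InfinitePlace K => GL (Fin 2) ℝ) w)

open Classical in
theorem reEmbAt_apply321 (w : InfinitePlace K) (s : GL (Fin 2) ℝ) :
    reEmbAt321 hR w s = reEmb321 hR (Pi.mulSingle w s) := rfl

theorem isLocalAtInf_reEmbAt321 (w : InfinitePlace K) (s : GL (Fin 2) ℝ) :
    IsLocalAtInf w (reEmbAt321 hR w s) := by
  classical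
  exact isLocalAtInf_reEmb321 hR w s

theorem reGL_reEmbAt321 (w : InfinitePlace K) (s : GL (Fin 2) ℝ) :
    reGL K w (hR w) (reEmbAt321 hR w s) = s := by
  classical
  rw [reEmbAt_apply321, reGL_reEmb321, Pi.mulSingle_eq_same]

theorem continuous_reEmbAt321 (w : InfinitePlace K) : Continuous (reEmbAt321 hR w) := by
  classical
  have h : Continuous (fun s : GL (Fin 2) ℝ =>
      (Pi.mulSingle w s : InfinitePlace K → GL (Fin 2) ℝ)) := by
    refine continuous_pi fun w' => ?_
    by_cases hw : w' = w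
    · subst hw
      simp only [Pi.mulSingle_eq_same]
      exact continuous_id
    · simp only [Pi.mulSingle_eq_of_ne hw]
      exact continuous_const
  exact (continuous_reEmb321 hR).comp h

/-! ## The projection to the real places and its section -/

/-- The projection `GL₂(𝔸_K) → GL₂(ℝ)ⁿ`. -/
def piRe321 {n : ℕ} (e : InfinitePlace K ≃ Fin n) : G K →* (Fin n → GL (Fin 2) ℝ) :=
  MonoidHom.pi fun i => reGL K (e.symm i) (hR (e.symm i))

theorem piRe_apply321 {n : ℕ} (e : InfinitePlace K ≃ Fin n) (x : G K) (i : Fin n) :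
    piRe321 hR e x i = reGL K (e.symm i) (hR (e.symm i)) x := rfl

theorem continuous_piRe321 {n : ℕ} (e : InfinitePlace K ≃ Fin n) :
    Continuous (piRe321 hR e) :=
  continuous_pi fun i => continuous_reGL321 (e.symm i) (hR (e.symm i))

/-- The section `GL₂(ℝ)ⁿ → GL₂(𝔸_K)`. -/
def embFinR321 {n : ℕ} (e : InfinitePlace K ≃ Fin n) : (Fin n → GL (Fin 2) ℝ) →* G K where
  toFun t := reEmb321 hR (fun w => t (e w))
  map_one' := (reEmb321 hR).map_one
  map_mul' s t := (reEmb321 hR).map_mul (fun w => s (e w)) (fun w => t (e w))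

theorem embFinR_apply321 {n : ℕ} (e : InfinitePlace K ≃ Fin n) (t : Fin n → GL (Fin 2) ℝ) :
    embFinR321 hR e t = reEmb321 hR (fun w => t (e w)) := rfl

theorem continuous_embFinR321 {n : ℕ} (e : InfinitePlace K ≃ Fin n) :
    Continuous (embFinR321 hR e) :=
  (continuous_reEmb321 hR).comp (continuous_pi fun w => continuous_apply (e w))

theorem piRe_embFinR321 {n : ℕ} (e : InfinitePlace K ≃ Fin n) (t : Fin n → GL (Fin 2) ℝ) :
    piRe321 hR e (embFinR321 hR e t) = t := by
  funext i
  rw [piRe_apply321, embFinR_apply321, reGL_reEmb321, Equiv.apply_symm_apply]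

theorem embFinR_piRe321 {n : ℕ} (e : InfinitePlace K ≃ Fin n) (x : G K) :
    embFinR321 hR e (piRe321 hR e x) = reEmb321 hR (fun w => reGL K w (hR w) x) := by
  rw [embFinR_apply321]
  congr 1
  funext w
  rw [piRe_apply321]
  have key : ∀ w' : InfinitePlace K, w' = w → reGL K w' (hR w') x = reGL K w (hR w) x := by
    intro w' h
    subst h
    rfl
  exact key _ (Equiv.symm_apply_apply e w)

theorem finGL_embFinR321 {n : ℕ} (e : InfinitePlace K ≃ Fin n) (t : Fin n → GL (Fin 2) ℝ)
    (v : HeightOneSpectrum (𝓞 K)) : AS.finGL K v (embFinR321 hR e t) = 1 :=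
  finGL_reEmb321 hR _ v

theorem embFinR_mulSingle321 {n : ℕ} (e : InfinitePlace K ≃ Fin n) (i : Fin n)
    (s : GL (Fin 2) ℝ) :
    embFinR321 hR e (Pi.mulSingle i s) = reEmbAt321 hR (e.symm i) s := by
  classical
  rw [embFinR_apply321, reEmbAt_apply321]
  congr 1
  funext w
  by_cases hw : w = e.symm i
  · subst hw
    simp
  · have h2 : e w ≠ i := fun h => hw (by rw [← h, Equiv.symm_apply_apply])
    rw [Pi.mulSingle_eq_of_ne h2, Pi.mulSingle_eq_of_ne hw]

theorem inU0_embFinR_mul321 {n : ℕ} (e : InfinitePlace K ≃ Fin n) (𝔫 : Ideal (𝓞 K))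
    (t : Fin n → GL (Fin 2) ℝ) (x : G K) (hx : InU057 𝔫 x) :
    InU057 𝔫 (embFinR321 hR e t * x) := by
  rw [inU0_iff_loc57] at hx ⊢
  intro v
  rw [map_mul, finGL_embFinR321, one_mul]
  exact hx v

variable [MeasurableSpace (G K)] [BorelSpace (G K)]

include hR in
/-- `U₀ ∩ π⁻¹ C` has finite measure. -/
theorem measure_lt_topR321 {n : ℕ} (e : InfinitePlace K ≃ Fin n) (𝔫 : Ideal (𝓞 K))
    (μ : Measure (G K)) [μ.IsHaarMeasure] (C : Set (Fin n → GL (Fin 2) ℝ)) (hC : IsCompact C) :
    μ ({x : G K | InU057 𝔫 x} ∩ piRe321 hR e ⁻¹' C) < ∞ := by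
  have hK0 := isCompact_stdCompact793 K
  have hcont : Continuous (fun p : (Fin n → GL (Fin 2) ℝ) × G K => embFinR321 hR e p.1 * p.2) :=
    ((continuous_embFinR321 hR e).comp continuous_fst).mul continuous_snd
  have himg : IsCompact ((fun p : (Fin n → GL (Fin 2) ℝ) × G K => embFinR321 hR e p.1 * p.2) ''
      (C ×ˢ {k : G K | IsStdCompact K k})) := (hC.prod hK0).image hcont
  refine lt_of_le_of_lt (measure_mono ?_) himg.measure_lt_top
  rintro x ⟨hx, hxC⟩
  refine ⟨(piRe321 hR e x, (embFinR321 hR e (piRe321 hR e x))⁻¹ * x), ⟨hxC, ?_⟩, ?_⟩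
  · have hu := inLevelGroup_ofR321 hR 𝔫 x hx
    rw [← embFinR_piRe321 hR e] at hu
    exact isStdCompact_of57 𝔫 _ hu
  · simp

end Re

end Fermat.Agent.LT.T3.R.H321

end
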