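import Mathlib
import Fermat.Agent.LT.T3.R.Spec
import Fermat.Agent.LT.T3.M.H474.ROpM
import Fermat.Agent.LT.T3.R.H321.ReEmb

/-!
# Row LT, tower T3, station T3.18R, leaf R.4 `ROpRC` (helper321, OFF-MAIN)

`rOpRC321 (K) : R.ROpRC K` = the frozen Prop of `LT/T3/R/Spec.lean` (helper14@15de5f60f,
sha256 a528b35a), VERBATIM, unconditional.  Complete proofs, nothing assumed.

Same proof as `rOpMC474` / `rOpMeanMC474` (helper474; `rOpC57`, helper57), `K` totally real: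
INDUCTION ON `P`, the constant `κ₁` is the constant `c` of `pushforward_haar57` (it does not
depend on `P`).  For every finite set `Q ⊆ P` and every `y`:

  `∫ φ(y x) pureFnR_Q(x) dμ(x) = c (∏_{v ∈ Q} laurent (A v) (z₁ v) (z₂ v)) (∏_w C_w) φ(y)`.

* `Q = ∅`: `pureFnR_∅ = pureOneR321`; `U₀ = G_∞ × U(𝔫)_f` is open, the image of `μ|_{U₀}` under
  `π = (reGL w)_w` is `c ∏_w μ_ℝ`; `φ(y x) = φ(y ι(π x))` on `U₀` (`level_inv`); the real places
  one at a time (`integral_pi_eigen57`): the local function `s ↦ φ(y ι(t) ι_w(s))` belongs to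
  `𝒞 w` (`IsClassLevelR.loc` for `Y = reEmbAt321 w`), and `ActsOnR` at `1`.
* `Q = {v₀} ∪ Q'`: `pureFnR_Q(x) = ∑_{h ∈ R_{v₀}} f₀_{v₀}(h) pureFnR_{Q'}(ι₀(h)⁻¹ x)`
  (`pureFnR_insert321`), left invariance of `μ`, the induction hypothesis at `y ι₀(h)`, and
  `AS.HasSatakeEigen` at `v₀` for the local eigenfunction `h ↦ φ(y ι₀(h))`.
-/

set_option autoImplicit false
set_option linter.style.haveILetI false
set_option linter.unusedSectionVars false

open IsDedekindDomain NumberField Topology MeasureTheory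
open Fermat.Agent.LT.H556.A0
open Fermat.Agent.LT.T1 Fermat.Agent.LT.T1.H724 Fermat.Agent.LT.T1.H793
open Fermat.Agent.LT.T3
open Fermat.Agent.LT.T3.H57
open Fermat.Agent.LT.T3.M.H474
open scoped ENNReal

noncomputable section

namespace Fermat.Agent.LT.T3.R.H321

variable {K : Type} [Field K] [NumberField K]

/-! ## The pure tensor -/

open Classical in
/-- The pure tensor without finite places: `⊗_w F_w ⊗ 1_{U(𝔫)_f}`. -/
def pureOneR321 (hR : ∀ w : InfinitePlace K, w.IsReal) (𝔫 : Ideal (𝓞 K))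
    (F : InfinitePlace K → GL (Fin 2) ℝ → ℂ) (x : G K) : ℂ :=
  if InU057 𝔫 x then ∏ w : InfinitePlace K, F w (reGL K w (hR w) x) else 0

open Classical in
theorem pureOneR_eq321 (hR : ∀ w : InfinitePlace K, w.IsReal) (𝔫 : Ideal (𝓞 K))
    (F : InfinitePlace K → GL (Fin 2) ℝ → ℂ) (x : G K) :
    pureOneR321 hR 𝔫 F x
      = if InU057 𝔫 x then ∏ w : InfinitePlace K, F w (reGL K w (hR w) x) else 0 := rfl

open Classical in
theorem pureFnR_eq321 (hR : ∀ w : InfinitePlace K, w.IsReal) (𝔫 : Ideal (𝓞 K))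
    (P : Finset (HeightOneSpectrum (𝓞 K)))
    (f₀ : ∀ v : HeightOneSpectrum (𝓞 K), GL (Fin 2) (v.adicCompletion K) → ℂ)
    (F : InfinitePlace K → GL (Fin 2) ℝ → ℂ) (x : G K) :
    pureFnR K hR 𝔫 P f₀ F x
      = if M.OutsideUM K 𝔫 P x then
          (∏ v ∈ P, f₀ v (AS.finGL K v x)) * ∏ w : InfinitePlace K, F w (reGL K w (hR w) x)
        else 0 := rfl

/-- For `P = ∅` the pure tensor is `pureOneR321`. -/
theorem pureFnR_empty321 (hR : ∀ w : InfinitePlace K, w.IsReal) (𝔫 : Ideal (𝓞 K))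
    (f₀ : ∀ v : HeightOneSpectrum (𝓞 K), GL (Fin 2) (v.adicCompletion K) → ℂ)
    (F : InfinitePlace K → GL (Fin 2) ℝ → ℂ) (x : G K) :
    pureFnR K hR 𝔫 ∅ f₀ F x = pureOneR321 hR 𝔫 F x := by
  classical
  have hiff : M.OutsideUM K 𝔫 ∅ x ↔ InU057 𝔫 x := by
    rw [outsideUM_iff_loc474, inU0_iff_loc57]
    constructor
    · intro h v
      exact h v (Finset.notMem_empty v)
    · intro h v _
      exact h v
  rw [pureFnR_eq321, pureOneR_eq321]
  by_cases hx : InU057 𝔫 x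
  · rw [if_pos (hiff.2 hx), if_pos hx, Finset.prod_empty, one_mul]
  · rw [if_neg (fun h => hx (hiff.1 h)), if_neg hx]

/-- `pureFnR_{{v₀} ∪ P} = ∑_{h ∈ R} f₀_{v₀}(h) L_{ι₀(h)} pureFnR_P`. -/
theorem pureFnR_insert321 [DecidableEq (HeightOneSpectrum (𝓞 K))]
    (hR : ∀ w : InfinitePlace K, w.IsReal)
    (𝔫 : Ideal (𝓞 K)) (P : Finset (HeightOneSpectrum (𝓞 K)))
    (v₀ : HeightOneSpectrum (𝓞 K)) (hv₀P : v₀ ∉ P) (hv₀ : ¬ v₀.asIdeal ∣ 𝔫)
    (f₀ : ∀ v : HeightOneSpectrum (𝓞 K), GL (Fin 2) (v.adicCompletion K) → ℂ)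
    (F : InfinitePlace K → GL (Fin 2) ℝ → ℂ) (hf₀ : AS.IsBiIntInv v₀ (f₀ v₀))
    (S : Finset (GL (Fin 2) (v₀.adicCompletion K))) (hS : AS.IsRepSys v₀ (f₀ v₀) S) (x : G K) :
    pureFnR K hR 𝔫 (insert v₀ P) f₀ F x
      = ∑ h ∈ S, f₀ v₀ h * pureFnR K hR 𝔫 P f₀ F ((finEmb57 v₀ h)⁻¹ * x) := by
  classical
  have hinf : ∀ (h : GL (Fin 2) (v₀.adicCompletion K)) (w : InfinitePlace K),
      reGL K w (hR w) ((finEmb57 v₀ h)⁻¹ * x) = reGL K w (hR w) x := by
    intro h w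
    rw [map_mul, map_inv, reGL_finEmb321, inv_one, one_mul]
  have hfin : ∀ (h : GL (Fin 2) (v₀.adicCompletion K)),
      ∏ v ∈ P, f₀ v (AS.finGL K v ((finEmb57 v₀ h)⁻¹ * x)) = ∏ v ∈ P, f₀ v (AS.finGL K v x) := by
    intro h
    refine Finset.prod_congr rfl fun v hv => ?_
    have hvv : v ≠ v₀ := fun hh => hv₀P (hh ▸ hv)
    rw [map_mul, map_inv, finGL_finEmb_ne57 v₀ h v hvv, inv_one, one_mul]
  obtain ⟨T, hT⟩ : ∃ T : ℂ, T = (∏ v ∈ P, f₀ v (AS.finGL K v x))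
      * ∏ w : InfinitePlace K, F w (reGL K w (hR w) x) := ⟨_, rfl⟩
  have hterm : ∀ h : GL (Fin 2) (v₀.adicCompletion K),
      pureFnR K hR 𝔫 P f₀ F ((finEmb57 v₀ h)⁻¹ * x)
        = if M.OutsideUM K 𝔫 (insert v₀ P) x ∧ AS.IsIntGL v₀ (h⁻¹ * AS.finGL K v₀ x)
          then T else 0 := by
    intro h
    rw [pureFnR_eq321]
    simp only [outsideUM_finEmb_inv_mul_iff474 𝔫 P v₀ hv₀P hv₀, hinf, hfin, hT]
  have hlhs : pureFnR K hR 𝔫 (insert v₀ P) f₀ F x
      = if M.OutsideUM K 𝔫 (insert v₀ P) x then f₀ v₀ (AS.finGL K v₀ x) * T else 0 := by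
    rw [pureFnR_eq321, Finset.prod_insert hv₀P, hT, mul_assoc]
  simp only [hterm]
  rw [hlhs]
  by_cases hout : M.OutsideUM K 𝔫 (insert v₀ P) x
  · simp only [hout, true_and, if_true]
    have hval : ∀ h : GL (Fin 2) (v₀.adicCompletion K),
        AS.IsIntGL v₀ (h⁻¹ * AS.finGL K v₀ x) → f₀ v₀ h = f₀ v₀ (AS.finGL K v₀ x) := by
      intro h hint
      have := hf₀ 1 (h⁻¹ * AS.finGL K v₀ x) h (isIntGL_one57 v₀) hint
      rw [one_mul, mul_inv_cancel_left] at this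
      exact this.symm
    by_cases h0 : f₀ v₀ (AS.finGL K v₀ x) = 0
    · rw [h0, zero_mul]
      symm
      refine Finset.sum_eq_zero fun h _ => ?_
      split_ifs with hint
      · rw [hval h hint, h0, zero_mul]
      · rw [mul_zero]
    · obtain ⟨h₀, hh₀, hint₀⟩ := hS.2 _ h0
      rw [Finset.sum_eq_single h₀]
      · rw [if_pos hint₀, hval h₀ hint₀]
      · intro h hh hne
        rw [if_neg, mul_zero]
        intro hint
        apply hne
        refine hS.1 h hh h₀ hh₀ ?_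
        have := isIntGL_mul57 v₀ hint (isIntGL_inv57 v₀ hint₀)
        rwa [mul_inv_rev, inv_inv, mul_assoc, mul_inv_cancel_left] at this
      · intro hh
        exact absurd hh₀ hh
  · simp only [hout, false_and, if_false, mul_zero, Finset.sum_const_zero]

/-! ## The local transfers -/

/-- `φ(y x) = φ(y ι(π x))` on `U₀`, for `φ` right invariant under `U(𝔫)`. -/
theorem class_eq_of_inU0R321 (hR : ∀ w : InfinitePlace K, w.IsReal) {n : ℕ}
    (e : InfinitePlace K ≃ Fin n) (𝔫 : Ideal (𝓞 K)) (φ : G K → ℂ)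
    (hlev : ∀ u : G K, InLevelGroup 𝔫 u → ∀ g : G K, φ (g * u) = φ g) (y x : G K)
    (hx : InU057 𝔫 x) :
    φ (y * x) = φ (y * embFinR321 hR e (piRe321 hR e x)) := by
  have hu := inLevelGroup_ofR321 hR 𝔫 x hx
  rw [embFinR_piRe321]
  have := hlev _ hu (y * reEmb321 hR (fun w => reGL K w (hR w) x))
  rw [mul_assoc, mul_inv_cancel_left] at this
  exact this

/-- `y ↦ φ(g ι₀(y))` is `AS.IsLocEigen` for `φ` right invariant under `U(𝔫)`, Hecke-eigen at
`v₀ ∤ 𝔫`. -/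
theorem isLocEigen_ofClassR321 (𝔫 : Ideal (𝓞 K)) (v₀ : HeightOneSpectrum (𝓞 K))
    (hv₀ : ¬ v₀.asIdeal ∣ 𝔫) (φ : G K → ℂ)
    (hlev : ∀ u : G K, InLevelGroup 𝔫 u → ∀ g : G K, φ (g * u) = φ g) (a b : ℂ)
    (he : IsHeckeEigenAt φ v₀ a b) (g : G K) :
    AS.IsLocEigen v₀ (fun y : GL (Fin 2) (v₀.adicCompletion K) => φ (g * finEmb57 v₀ y)) a b := by
  classical
  refine ⟨?_, ?_, ?_⟩
  · intro k y hk
    rw [map_mul, ← mul_assoc]
    exact hlev _ (inLevelGroup_finEmb57 𝔫 v₀ hv₀ k hk) _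
  · intro H hH y
    have hsys : IsHeckeCosetSystem v₀ (H.image (finEmb57 (K := K) v₀)) := by
      refine ⟨?_, ?_, ?_⟩
      · rw [Finset.card_image_of_injective _ (finEmb_injective57 v₀)]
        exact hH.1
      · intro h' hh'
        obtain ⟨h, hh, rfl⟩ := Finset.mem_image.1 hh'
        refine ⟨isLocalAtFin_finEmb57 v₀ h, ?_, ?_⟩
        · intro i j
          rw [finComp_finEmb57]
          exact (hH.2.1 h hh).1 i j
        · rw [finComp_finEmb57]
          exact (hH.2.1 h hh).2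
      · intro h₁ hh₁ h₂ hh₂ hne hint
        obtain ⟨a₁, ha₁, rfl⟩ := Finset.mem_image.1 hh₁
        obtain ⟨a₂, ha₂, rfl⟩ := Finset.mem_image.1 hh₂
        have hne' : a₁ ≠ a₂ := fun h => hne (by rw [h])
        refine hH.2.2 a₁ ha₁ a₂ ha₂ hne' fun i j => ?_
        have := hint i j
        rwa [← map_inv, ← map_mul, finComp_finEmb57] at this
    have := he.1 _ hsys (g * finEmb57 v₀ y)
    rw [Finset.sum_image (fun x _ y _ hxy => finEmb_injective57 v₀ hxy)] at this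
    rw [← this]
    refine Finset.sum_congr rfl fun h _ => ?_
    rw [map_mul, ← mul_assoc]
  · intro z c hc hz y
    rw [map_mul, ← mul_assoc]
    refine he.2 _ ⟨isLocalAtFin_finEmb57 v₀ z, c, hc, ?_⟩ _
    rw [finComp_finEmb57]
    exact hz

/-! ## The integral over `GL₂(𝔸_K)` without finite places -/

section Int

variable (hR : ∀ w : InfinitePlace K, w.IsReal)
variable [MeasurableSpace (G K)] [BorelSpace (G K)]

/-- The integral of `φ(y ·) f¹` over `GL₂(𝔸_K)`, abstract local classes. -/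
theorem integral_pureOneR321 {n : ℕ} (e : InfinitePlace K ≃ Fin n) (𝔫 : Ideal (𝓞 K))
    (h𝔫 : 𝔫 ≠ ⊥) [MeasurableSpace (GL (Fin 2) ℝ)] [BorelSpace (GL (Fin 2) ℝ)]
    (μ : Measure (G K)) (μr : Measure (GL (Fin 2) ℝ)) [μr.IsHaarMeasure] (c : ℝ)
    (hc : ∀ f : (Fin n → GL (Fin 2) ℝ) → ℂ, Continuous f → HasCompactSupport f →
      IntegrableOn (fun x => f (piRe321 hR e x)) {x : G K | InU057 𝔫 x} μ ∧
      ∫ x in {x : G K | InU057 𝔫 x}, f (piRe321 hR e x) ∂μ
        = c • ∫ t, f t ∂(Measure.pi fun _ : Fin n => μr))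
    (F : InfinitePlace K → GL (Fin 2) ℝ → ℂ)
    (hFc : ∀ w, Continuous (F w)) (hFs : ∀ w, HasCompactSupport (F w))
    (C : InfinitePlace K → ℂ) (𝒞 : InfinitePlace K → Set (GL (Fin 2) ℝ → ℂ))
    (hC : ∀ w, ActsOnR μr (F w) (𝒞 w) (C w))
    (φ : G K → ℂ) (hφ : IsClassLevelR K hR 𝔫 𝒞 φ) (y : G K) :
    Integrable (fun x => φ (y * x) * pureOneR321 hR 𝔫 F x) μ ∧
      ∫ x, φ (y * x) * pureOneR321 hR 𝔫 F x ∂μ = (c : ℂ) * (∏ w, C w) * φ y := by
  classical
  haveI := secondCountable_GL2R321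
  haveI := locallyCompact_GL2R321
  have hUm : MeasurableSet {x : G K | InU057 𝔫 x} := (isOpen_inU057 𝔫 h𝔫).measurableSet
  obtain ⟨Φ, hΦ⟩ : ∃ Φ : (Fin n → GL (Fin 2) ℝ) → ℂ, Φ = fun t => φ (y * embFinR321 hR e t) :=
    ⟨_, rfl⟩
  have hΦc : Continuous Φ := by
    rw [hΦ]
    exact hφ.cont.comp (continuous_const.mul (continuous_embFinR321 hR e))
  obtain ⟨Q, hQ⟩ : ∃ Q : (Fin n → GL (Fin 2) ℝ) → ℂ,
      Q = fun t => Φ t * ∏ i, F (e.symm i) (t i) := ⟨_, rfl⟩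
  have hQc : Continuous Q := by
    rw [hQ]
    exact hΦc.mul (continuous_finsetProd _ fun i _ => (hFc _).comp (continuous_apply i))
  have hQs : HasCompactSupport Q := by
    rw [hQ]
    exact hasCompactSupport_mul_prod57 n Φ (fun i => F (e.symm i)) (fun i => hFs _)
  obtain ⟨hint, hval⟩ := hc Q hQc hQs
  have hfun : (fun x => φ (y * x) * pureOneR321 hR 𝔫 F x)
      = Set.indicator {x : G K | InU057 𝔫 x} (fun x => Q (piRe321 hR e x)) := by
    funext x
    by_cases hx : InU057 𝔫 x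
    · rw [Set.indicator_of_mem (show x ∈ {x : G K | InU057 𝔫 x} from hx)]
      rw [pureOneR_eq321, if_pos hx, hQ, hΦ]
      simp only
      rw [← class_eq_of_inU0R321 hR e 𝔫 φ hφ.level_inv y x hx]
      congr 1
      exact (Equiv.prod_comp e.symm (fun w => F w (reGL K w (hR w) x))).symm
    · rw [Set.indicator_of_notMem (show x ∉ {x : G K | InU057 𝔫 x} from hx)]
      rw [pureOneR_eq321, if_neg hx, mul_zero]
  rw [hfun]
  refine ⟨(integrable_indicator_iff hUm).2 hint, ?_⟩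
  rw [integral_indicator hUm, hval]
  have hpi := integral_pi_eigen57 μr n Φ hΦc (fun i => F (e.symm i)) (fun i => hFc _)
    (fun i => hFs _) (fun i => C (e.symm i)) ?_
  · have hQint : ∫ t, Q t ∂(Measure.pi fun _ : Fin n => μr)
        = ∫ t, Φ t * ∏ i, F (e.symm i) (t i) ∂(Measure.pi fun _ : Fin n => μr) := by rw [hQ]
    rw [hQint, hpi, Complex.real_smul, Equiv.prod_comp e.symm C]
    have h1 : Φ 1 = φ y := by rw [hΦ]; simp
    rw [h1]
    ring
  · intro i t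
    have hΨ := hφ.loc (e.symm i) (fun s => reEmbAt321 hR (e.symm i) s)
      (fun s => ⟨isLocalAtInf_reEmbAt321 hR (e.symm i) s, reGL_reEmbAt321 hR (e.symm i) s⟩)
      (y * embFinR321 hR e t)
    have hact := hC (e.symm i) _ hΨ 1
    simp only [one_mul, map_one, mul_one] at hact
    have hupd : ∀ s : GL (Fin 2) ℝ, Function.update t i (t i * s) = t * Pi.mulSingle i s := by
      intro s
      funext j
      by_cases hj : j = i
      · subst hj
        simp
      · simp [Function.update_of_ne hj, Pi.mulSingle_eq_of_ne hj]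
    have hΦs : ∀ s : GL (Fin 2) ℝ, Φ (Function.update t i (t i * s))
        = φ (y * embFinR321 hR e t * reEmbAt321 hR (e.symm i) s) := by
      intro s
      rw [hΦ]
      simp only
      rw [hupd, map_mul, embFinR_mulSingle321, mul_assoc]
    simp_rw [hΦs]
    rw [hact, hΦ]

end Int

/-! ## The leaf -/

/-- **R.4 `ROpRC`, unconditional.** -/
theorem rOpRC321 (K : Type) [Field K] [NumberField K] : R.ROpRC K := by
  classical
  letI : MeasurableSpace (G K) := borel (G K)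
  haveI : BorelSpace (G K) := ⟨rfl⟩
  letI : MeasurableSpace (GL (Fin 2) ℝ) := borel (GL (Fin 2) ℝ)
  haveI : BorelSpace (GL (Fin 2) ℝ) := ⟨rfl⟩
  haveI := secondCountable_GL2R321
  haveI := locallyCompact_GL2R321
  intro hR μ hμ μr hμr 𝔫 h𝔫 P hP
  haveI := hμ
  haveI := hμr
  obtain ⟨n, ⟨e⟩⟩ : ∃ n, Nonempty (InfinitePlace K ≃ Fin n) := ⟨_, ⟨Fintype.equivFin _⟩⟩
  obtain ⟨c, hc0, hc⟩ := pushforward_haar57 μ (Measure.pi fun _ : Fin n => μr)
    {x : G K | InU057 𝔫 x} (isOpen_inU057 𝔫 h𝔫) (piRe321 hR e) (continuous_piRe321 hR e)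
    (embFinR321 hR e) (piRe_embFinR321 hR e) (fun t x hx => inU0_embFinR_mul321 hR e 𝔫 t x hx)
    (inU0_one57 𝔫) (fun C hC => measure_lt_topR321 hR e 𝔫 μ C hC)
  refine ⟨(c : ℂ), by exact_mod_cast hc0.ne', ?_⟩
  intro m A C 𝒞 f₀ F hf₀ hRex hA hF hC φ hφ a b z₁ z₂ he hab hb hb0 g
  have hB := fun y => integral_pureOneR321 hR e 𝔫 h𝔫 μ μr c hc F (fun w => (hF w).cont)
    (fun w => (hF w).supp) C 𝒞 hC φ hφ y
  have key : ∀ Q : Finset (HeightOneSpectrum (𝓞 K)), Q ⊆ P → ∀ y : G K,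
      Integrable (fun x => φ (y * x) * pureFnR K hR 𝔫 Q f₀ F x) μ ∧
        ∫ x, φ (y * x) * pureFnR K hR 𝔫 Q f₀ F x ∂μ
          = (c : ℂ) * (∏ v ∈ Q, AS.laurent (A v) (z₁ v) (z₂ v)) * (∏ w, C w) * φ y := by
    intro Q
    induction Q using Finset.induction_on with
    | empty =>
      intro _ y
      have hfun : (fun x => φ (y * x) * pureFnR K hR 𝔫 ∅ f₀ F x)
          = fun x => φ (y * x) * pureOneR321 hR 𝔫 F x := by
        funext x
        rw [pureFnR_empty321]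
      rw [hfun, Finset.prod_empty, mul_one]
      exact hB y
    | insert v₀ Q hv₀Q ih =>
      intro hsub y
      have hv₀P : v₀ ∈ P := hsub (Finset.mem_insert_self v₀ Q)
      have hQP : Q ⊆ P := fun v hv => hsub (Finset.mem_insert_of_mem hv)
      have hv₀ : ¬ v₀.asIdeal ∣ 𝔫 := hP v₀ hv₀P
      obtain ⟨S, hS⟩ := hRex v₀ hv₀P
      have ihQ := ih hQP
      have hsum : ∀ x, φ (y * x) * pureFnR K hR 𝔫 (insert v₀ Q) f₀ F x
          = ∑ h ∈ S, f₀ v₀ h
              * (φ (y * x) * pureFnR K hR 𝔫 Q f₀ F ((finEmb57 v₀ h)⁻¹ * x)) := by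
        intro x
        rw [pureFnR_insert321 hR 𝔫 Q v₀ hv₀Q hv₀ f₀ F (hf₀ v₀ hv₀P) S hS x, Finset.mul_sum]
        exact Finset.sum_congr rfl fun h _ => by ring
      have hterm_int : ∀ h : GL (Fin 2) (v₀.adicCompletion K),
          Integrable (fun x => φ (y * x)
            * pureFnR K hR 𝔫 Q f₀ F ((finEmb57 v₀ h)⁻¹ * x)) μ := by
        intro h
        have := ((ihQ (y * finEmb57 v₀ h)).1).comp_mul_left (finEmb57 v₀ h)⁻¹
        refine this.congr (Filter.Eventually.of_forall fun x => ?_)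
        simp only [mul_assoc, mul_inv_cancel_left]
      have hterm : ∀ h : GL (Fin 2) (v₀.adicCompletion K),
          ∫ x, φ (y * x) * pureFnR K hR 𝔫 Q f₀ F ((finEmb57 v₀ h)⁻¹ * x) ∂μ
            = (c : ℂ) * (∏ v ∈ Q, AS.laurent (A v) (z₁ v) (z₂ v)) * (∏ w, C w)
                * φ (y * finEmb57 v₀ h) := by
        intro h
        rw [← (ihQ (y * finEmb57 v₀ h)).2,
          ← integral_mul_left_eq_self
            (fun x => φ (y * finEmb57 v₀ h * x) * pureFnR K hR 𝔫 Q f₀ F x) (finEmb57 v₀ h)⁻¹]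
        refine integral_congr_ae (Filter.Eventually.of_forall fun x => ?_)
        simp only [mul_assoc, mul_inv_cancel_left]
      have hfun : (fun x => φ (y * x) * pureFnR K hR 𝔫 (insert v₀ Q) f₀ F x)
          = fun x => ∑ h ∈ S, f₀ v₀ h
              * (φ (y * x) * pureFnR K hR 𝔫 Q f₀ F ((finEmb57 v₀ h)⁻¹ * x)) := by
        funext x
        exact hsum x
      rw [hfun]
      refine ⟨integrable_finsetSum _ fun h _ => (hterm_int h).const_mul _, ?_⟩
      rw [integral_finsetSum _ (fun h _ => (hterm_int h).const_mul _)]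
      simp_rw [integral_const_mul, hterm]
      have hSat := hA v₀ hv₀P (fun u => φ (y * finEmb57 v₀ u)) (a v₀) (b v₀) (z₁ v₀) (z₂ v₀)
        (isLocEigen_ofClassR321 𝔫 v₀ hv₀ φ hφ.level_inv (a v₀) (b v₀) (he v₀ hv₀P) y)
        (hab v₀ hv₀P) (hb v₀ hv₀P) (hb0 v₀ hv₀P) S hS 1
      simp only [one_mul, map_one, mul_one] at hSat
      rw [Finset.prod_insert hv₀Q]
      calc ∑ h ∈ S, f₀ v₀ h * ((c : ℂ) * (∏ v ∈ Q, AS.laurent (A v) (z₁ v) (z₂ v))
              * (∏ w, C w) * φ (y * finEmb57 v₀ h))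
          = (c : ℂ) * (∏ v ∈ Q, AS.laurent (A v) (z₁ v) (z₂ v)) * (∏ w, C w)
              * ∑ h ∈ S, f₀ v₀ h * φ (y * finEmb57 v₀ h) := by
            rw [Finset.mul_sum]
            exact Finset.sum_congr rfl fun h _ => by ring
        _ = (c : ℂ) * (AS.laurent (A v₀) (z₁ v₀) (z₂ v₀)
              * ∏ v ∈ Q, AS.laurent (A v) (z₁ v) (z₂ v)) * (∏ w, C w) * φ y := by
            rw [hSat]
            ring
  exact (key P (Finset.Subset.refl P) g).2

example (K : Type) [Field K] [NumberField K] : R.ROpRC K := rOpRC321 K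

end Fermat.Agent.LT.T3.R.H321

end
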